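import Mathlib

/-!
# The lattice of solutions

For an integral `m × n` matrix `A` with `det (A Aᵀ) ≠ 0` the lattice of integral solutions of
`A x = 0` has a basis whose Gram determinant, times the square of a nonzero integer, is
`det (A Aᵀ)`. The lattice is a direct summand, so a basis of it extends to one of `ℤ ^ n`, and the
complementary blocks of `W = S Sᵀ` and of its inverse have equal determinants.
-/

set_option autoImplicit false

noncomputable section

open Matrix Module

namespace FA.SiegelLemma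

variable {m l n : ℕ}

/-- Complementary blocks of a symmetric matrix `S Sᵀ` of determinant one and of its inverse. -/
theorem det_blocks (S : Matrix (Fin m ⊕ Fin l) (Fin n) ℤ)
    (T : Matrix (Fin n) (Fin m ⊕ Fin l) ℤ) (hST : S * T = 1) (hTS : T * S = 1)
    (hn : n = m + l) :
    (S.toRows₁ * S.toRows₁ᵀ).det = (T.toCols₂ᵀ * T.toCols₂).det := by
  subst hn
  set W := S * Sᵀ with hW
  set V := Tᵀ * T with hV
  have hWV : W * V = 1 := by
    rw [hW, hV, show S * Sᵀ * (Tᵀ * T) = S * (T * S)ᵀ * T by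
      simp only [transpose_mul, Matrix.mul_assoc], hTS, transpose_one, Matrix.mul_one, hST]
  have hdetW : W.det = 1 := by
    set e : Fin (m + l) ≃ Fin m ⊕ Fin l := finSumFinEquiv.symm
    set S' := S.submatrix e id with hS'
    have h1 : W.det = S'.det ^ 2 := by
      rw [← det_submatrix_equiv_self e W, sq]
      conv_rhs => arg 2; rw [← det_transpose]
      rw [← det_mul]
      rfl
    have h2 : IsUnit S'.det := by
      refine isUnit_iff_exists_inv.2 ⟨(T.submatrix id e).det, ?_⟩
      rw [← det_mul, hS', ← submatrix_mul S T e id e Function.bijective_id, hST,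
        submatrix_one_equiv, det_one]
    rw [h1]
    rcases Int.isUnit_iff.1 h2 with h | h <;> simp [h]
  have hblock : W * fromBlocks 1 V.toBlocks₁₂ 0 V.toBlocks₂₂ =
      fromBlocks W.toBlocks₁₁ 0 W.toBlocks₂₁ 1 := by
    have h : fromBlocks W.toBlocks₁₁ W.toBlocks₁₂ W.toBlocks₂₁ W.toBlocks₂₂ *
        fromBlocks V.toBlocks₁₁ V.toBlocks₁₂ V.toBlocks₂₁ V.toBlocks₂₂ =
          fromBlocks 1 0 0 1 := by
      rw [fromBlocks_toBlocks, fromBlocks_toBlocks, hWV, fromBlocks_one]
    rw [fromBlocks_multiply, fromBlocks_inj] at h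
    conv_lhs => rw [← fromBlocks_toBlocks W]
    rw [fromBlocks_multiply, h.2.1, h.2.2.2]
    simp
  have h := congrArg det hblock
  rw [det_mul, det_fromBlocks_zero₂₁, det_fromBlocks_zero₁₂, hdetW, det_one, det_one, one_mul,
    one_mul, mul_one] at h
  exact h.symm

theorem linearIndependent_of_det {l n : ℕ} {B : Matrix (Fin l) (Fin n) ℤ}
    (h : (B * Bᵀ).det ≠ 0) (c : Fin l → ℤ) (hc : c ᵥ* B = 0) : c = 0 := by
  refine Matrix.eq_zero_of_vecMul_eq_zero h ?_
  rw [← vecMul_vecMul, hc, zero_vecMul]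

/-- **The duality of the heights**: a basis of the solutions, and the square. -/
theorem exists_kernel_basis (A : Matrix (Fin m) (Fin n) ℤ) (hA : (A * Aᵀ).det ≠ 0)
    (hn : n = m + l) :
    ∃ (B : Matrix (Fin l) (Fin n) ℤ) (A' : Matrix (Fin m) (Fin m) ℤ),
      (∀ i, A *ᵥ B i = 0) ∧ (∀ x, A *ᵥ x = 0 → ∃ c, x = c ᵥ* B) ∧
      A'.det.natAbs = Nat.card ((Fin m → ℤ) ⧸ LinearMap.range A.mulVecLin) ∧
      A'.det ≠ 0 ∧ A'.det ^ 2 * (B * Bᵀ).det = (A * Aᵀ).det := by
  set f := A.mulVecLin with hf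
  have hrange : finrank ℤ f.range = m := by
    refine le_antisymm ((Submodule.finrank_le _).trans_eq (finrank_fin_fun ℤ)) ?_
    refine (finrank_fin_fun ℤ).symm.le.trans
      (LinearMap.finrank_le_finrank_of_injective (f := LinearMap.codRestrict f.range
        ((A * Aᵀ).mulVecLin) fun v => ⟨Aᵀ *ᵥ v, mulVec_mulVec v A Aᵀ⟩) ?_)
    intro u v huv
    have h : (A * Aᵀ) *ᵥ u = (A * Aᵀ) *ᵥ v := congrArg Subtype.val huv
    exact sub_eq_zero.1 (Matrix.eq_zero_of_mulVec_eq_zero hA (by rw [mulVec_sub, h, sub_self]))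
  obtain ⟨g, hg⟩ := f.rangeRestrict.exists_rightInverse_of_surjective
    (LinearMap.range_rangeRestrict f)
  have hfg : ∀ y : f.range, f (g y) = (y : Fin m → ℤ) := fun y =>
    congrArg Subtype.val (LinearMap.congr_fun hg y)
  let e : (f.range × f.ker) ≃ₗ[ℤ] (Fin n → ℤ) :=
    { toFun := fun p => g p.1 + p.2
      map_add' := fun p q => by
        simp only [Prod.fst_add, Prod.snd_add, map_add, Submodule.coe_add]
        abel
      map_smul' := fun c p => by simp [smul_add]
      invFun := fun x => (f.rangeRestrict x, ⟨x - g (f.rangeRestrict x), by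
        simp [LinearMap.mem_ker, hfg]⟩)
      left_inv := fun p => by
        have h : f.rangeRestrict (g p.1 + p.2) = p.1 := Subtype.ext (by
          simp [hfg, LinearMap.mem_ker.1 p.2.2])
        refine Prod.ext h (Subtype.ext ?_)
        simp [h]
      right_inv := fun x => by simp }
  have hker : finrank ℤ f.ker = l := by
    have h := e.finrank_eq
    rw [finrank_prod, hrange, finrank_fin_fun] at h
    omega
  let b₁ : Basis (Fin m) ℤ f.range := finBasisOfFinrankEq ℤ _ hrange
  let b₂ : Basis (Fin l) ℤ f.ker := finBasisOfFinrankEq ℤ _ hker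
  let b : Basis (Fin m ⊕ Fin l) ℤ (Fin n → ℤ) := (b₁.prod b₂).map e
  let s := Pi.basisFun ℤ (Fin n)
  set T := s.toMatrix b with hT
  set S := b.toMatrix s with hS
  have hST : S * T = 1 := by rw [hS, hT, b.toMatrix_mul_toMatrix, b.toMatrix_self]
  have hTS : T * S = 1 := by rw [hS, hT, s.toMatrix_mul_toMatrix, s.toMatrix_self]
  have hbl : ∀ i, b (Sum.inl i) = g (b₁ i) := fun i => by simp [b, e]
  have hbr : ∀ i, b (Sum.inr i) = (b₂ i : Fin n → ℤ) := fun i => by simp [b, e]
  set A' : Matrix (Fin m) (Fin m) ℤ := Matrix.of fun j i => (b₁ i : Fin m → ℤ) j with hA'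
  have hAT : A * T = fromCols A' 0 := by
    ext j i
    have h : (A * T) j i = f (b i) j := by
      simp [hf, hT, s, Basis.toMatrix_apply, Matrix.mul_apply, mulVec, dotProduct]
    rw [h]
    rcases i with i | i
    · rw [hbl, hfg, fromCols_apply_inl]
      rfl
    · rw [hbr, LinearMap.mem_ker.1 (b₂ i).2, fromCols_apply_inr]
      rfl
  have hAS : A = A' * S.toRows₁ := by
    conv_lhs => rw [← Matrix.mul_one A, ← hTS, ← Matrix.mul_assoc, hAT,
      ← fromRows_toRows S, fromCols_mul_fromRows, Matrix.zero_mul, add_zero]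
  have hdet : (A * Aᵀ).det = A'.det ^ 2 * (S.toRows₁ * S.toRows₁ᵀ).det := by
    rw [hAS, transpose_mul, Matrix.mul_assoc A', ← Matrix.mul_assoc S.toRows₁, det_mul, det_mul,
      det_transpose]
    ring
  refine ⟨Matrix.of fun i => (b₂ i : Fin n → ℤ), A', fun i => ?_, fun x hx => ?_,
    ?_, ?_, ?_⟩
  · exact LinearMap.mem_ker.1 (b₂ i).2
  · refine ⟨b₂.repr ⟨x, hx⟩, ?_⟩
    have h := congrArg Subtype.val (b₂.sum_repr ⟨x, hx⟩)
    rw [vecMul_eq_sum]
    simp only [Submodule.coe_sum, SetLike.val_smul] at h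
    exact h.symm
  · rw [← Submodule.natAbs_det_basis_change (Pi.basisFun ℤ (Fin m)) f.range b₁]
    congr 1
  · intro h
    rw [hdet, h] at hA
    simp at hA
  · rw [hdet, det_blocks S T hST hTS hn]
    congr 2
    ext i j
    simp [hT, s, Basis.toMatrix_apply, Matrix.mul_apply, hbr]

end FA.SiegelLemma
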