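import Fermat.Agent.SiegelLemma.Duality
import Fermat.Agent.Root.SummarySuccessiveMinima

/-!
# Small solutions of linear equations

Minkowski's theorem on the successive minima of the Gram form of a basis of the solutions.
-/

set_option autoImplicit false

noncomputable section

open Matrix FA.Perfect FA.Reduction
open Module (finrank)

namespace FA.SiegelLemma

variable {m k n : ℕ}

theorem ival_gram (B : Matrix (Fin (k + 1)) (Fin n) ℤ) (v : Fin (k + 1) → ℤ) :
    ival ((B * Bᵀ).map fun z : ℤ => (z : ℝ)) v = ((∑ j, (v ᵥ* B) j ^ 2 : ℤ) : ℝ) := by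
  have h : v ⬝ᵥ ((B * Bᵀ) *ᵥ v) = ∑ j, (v ᵥ* B) j ^ 2 := by
    rw [← mulVec_mulVec, dotProduct_mulVec, ← vecMul_transpose, transpose_transpose]
    simp [dotProduct, sq]
  rw [← h]
  simp [ival, quad, dotProduct, mulVec, Finset.mul_sum]

theorem posDef_gram (B : Matrix (Fin (k + 1)) (Fin n) ℤ) (h : (B * Bᵀ).det ≠ 0) :
    ((B * Bᵀ).map fun z : ℤ => (z : ℝ)).PosDef := by
  have hdet : ((B * Bᵀ).map fun z : ℤ => (z : ℝ)).det = ((B * Bᵀ).det : ℝ) :=
    ((Int.castRingHom ℝ).map_det _).symm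
  refine (Matrix.PosSemidef.posDef_iff_isUnit ?_).2 ?_
  · have e : ((B * Bᵀ).map fun z : ℤ => (z : ℝ)) =
        (B.map fun z : ℤ => (z : ℝ)) * (B.map fun z : ℤ => (z : ℝ))ᴴ := by
      ext i j
      simp [Matrix.mul_apply]
    rw [e]
    exact posSemidef_self_mul_conjTranspose _
  · rw [isUnit_iff_isUnit_det, hdet]
    exact (Int.cast_ne_zero.2 h).isUnit

/-- **Siegel's lemma with the height of the system.** -/
theorem exists_small_solutions (A : Matrix (Fin m) (Fin n) ℤ) (hA : (A * Aᵀ).det ≠ 0)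
    (hn : n = m + (k + 1)) :
    ∃ x : Fin (k + 1) → Fin n → ℤ, (∀ i, A *ᵥ x i = 0) ∧ LinearIndependent ℤ x ∧
      (∀ i, ∑ j, x 0 j ^ 2 ≤ ∑ j, x i j ^ 2) ∧
      ((∏ i, ∑ j, x i j ^ 2 : ℤ) : ℝ) ≤
        Real.sqrt ((4 / 3 : ℝ) ^ (k * (k + 1))) * ((A * Aᵀ).det : ℝ) := by
  obtain ⟨B, A', hB, -, -, hA', hdet⟩ := exists_kernel_basis A hA hn
  have hB0 : (B * Bᵀ).det ≠ 0 := fun h => hA (by rw [← hdet, h, mul_zero])
  set Q := (B * Bᵀ).map fun z : ℤ => (z : ℝ) with hQ
  have hP : Q.PosDef := posDef_gram B hB0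
  obtain ⟨⟨v, hv, hval⟩, hmono, -, hpos⟩ := FA.Summary.successiveMinima_attained hP
  have hprod := (FA.Summary.successiveMinima_product hP).2
  refine ⟨fun i => v i ᵥ* B, fun i => ?_, ?_, fun i => ?_, ?_⟩
  · simp only [vecMul_eq_sum]
    rw [mulVec_sum]
    exact Finset.sum_eq_zero fun j _ => by rw [mulVec_smul, hB, smul_zero]
  · rw [Fintype.linearIndependent_iff]
    intro c hc
    have h0 : ∑ i, c i • v i = 0 := linearIndependent_of_det hB0 _ (by
      rw [sum_vecMul]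
      exact (Finset.sum_congr rfl fun i _ => smul_vecMul (c i) (v i) B).trans hc)
    have hR : ∑ i, (c i : ℝ) • (castVec ∘ v) i = 0 := by
      ext j
      simpa [castVec] using congrArg (fun z : ℤ => (z : ℝ)) (congrFun h0 j)
    exact fun i => Int.cast_eq_zero.1 (Fintype.linearIndependent_iff.1 hv _ hR i)
  · have h := hmono (Fin.zero_le i)
    rw [← hval, ← hval, hQ, ival_gram, ival_gram] at h
    exact_mod_cast h
  · rw [Int.cast_prod]
    simp only [← ival_gram]
    rw [← hQ]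
    simp only [hval]
    refine hprod.trans ?_
    rw [hQ, show ((B * Bᵀ).map fun z : ℤ => (z : ℝ)).det = ((B * Bᵀ).det : ℝ) from
      ((Int.castRingHom ℝ).map_det _).symm]
    gcongr
    have h1 : 1 ≤ A'.det ^ 2 := by
      have : 0 < A'.det ^ 2 := sq_pos_of_ne_zero hA'
      omega
    have hpos' : (0 : ℤ) ≤ (B * Bᵀ).det := by
      have := hP.det_pos
      rw [hQ, show ((B * Bᵀ).map fun z : ℤ => (z : ℝ)).det = ((B * Bᵀ).det : ℝ) from
        ((Int.castRingHom ℝ).map_det _).symm] at this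
      exact_mod_cast this.le
    rw [← hdet]
    exact le_mul_of_one_le_left hpos' h1

end FA.SiegelLemma
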